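import Fermat.Agent.IntegralAverage.Thue
import Fermat.Agent.AverageRank.Main

/-!
# Points with `S`-integral abscissa and quartic forms

A point with `S`-integral `x` gives a quartic form taking a value composed of primes of `S` at
`(1, 0)`, so by Evertse each class gives boundedly many of them. An integral point whose form has
a rational zero is the double of an integral point `(k, l)` with `l² ∣ 4 A³ + 27 B²`.
-/

set_option autoImplicit false

noncomputable section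

open FA.SiegelPoints FA.AverageRank
open scoped Classical

namespace FA.IntegralAverage

/-- A form of a point, of denominator `D`. -/
structure IsPointForm (A B : ℤ) (x y : ℚ) (F : QuarticForm) (D : ℤ) : Prop where
  hD : D ≠ 0
  ha : F.a = D ^ 2
  hH : ((3 * F.b ^ 2 - 8 * F.a * F.c : ℤ) : ℚ) = 48 * x * (D : ℚ) ^ 2
  hR : ((F.b ^ 3 + 8 * F.a ^ 2 * F.d - 4 * F.a * F.b * F.c : ℤ) : ℚ) = 64 * y * (D : ℚ) ^ 3
  hI : F.invI = -48 * A
  hJ : F.invJ = -1728 * B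

/-- The quartic of a point. -/
def rootPoly (A : ℤ) (x y t : ℚ) : ℚ := t ^ 4 - 6 * x * t ^ 2 + 8 * y * t - 4 * A - 3 * x ^ 2

variable {A B : ℤ} {x y : ℚ} {F : QuarticForm} {D : ℤ}

theorem IsPointForm.nondegenerate (h : IsPointForm A B x y F D)
    (hΔ : 4 * A ^ 3 + 27 * B ^ 2 ≠ 0) : F.Nondegenerate := by
  rw [QuarticForm.Nondegenerate, h.hI, h.hJ]
  intro h0
  exact hΔ (mul_left_cancel₀ (show (-110592 : ℤ) ≠ 0 by norm_num) (by linear_combination h0))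

theorem IsPointForm.anisotropic (h : IsPointForm A B x y F D)
    (hnr : ∀ t, rootPoly A x y t ≠ 0) : F.Anisotropic := by
  intro p r h0
  have hD : (D : ℚ) ≠ 0 := Int.cast_ne_zero.mpr h.hD
  by_cases hr : r = 0
  · subst hr
    simp only [QuarticForm.eval, Int.cast_id, h.ha] at h0
    refine ⟨?_, rfl⟩
    by_contra hp
    exact mul_ne_zero (pow_ne_zero 2 h.hD) (pow_ne_zero 4 hp) (by linarith)
  exfalso
  have hr' : (r : ℚ) ≠ 0 := Int.cast_ne_zero.mpr hr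
  set t : ℚ := (4 * (F.a : ℚ) * p + F.b * r) / (4 * D * r) with ht
  have hW : t * (4 * (D : ℚ) * r) = 4 * (F.a : ℚ) * p + F.b * r := by
    rw [ht, div_mul_cancel₀ _ (mul_ne_zero (mul_ne_zero four_ne_zero hD) hr')]
  have key3 : 3 * ((4 * F.a * p + F.b * r) ^ 4
      - 2 * (3 * F.b ^ 2 - 8 * F.a * F.c) * (4 * F.a * p + F.b * r) ^ 2 * r ^ 2
      + 8 * (F.b ^ 3 + 8 * F.a ^ 2 * F.d - 4 * F.a * F.b * F.c) * (4 * F.a * p + F.b * r) * r ^ 3)
      + (64 * F.a ^ 2 * F.invI - (3 * F.b ^ 2 - 8 * F.a * F.c) ^ 2) * r ^ 4 = 0 := by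
    have e : 64 * F.a ^ 2 * F.invI - (3 * F.b ^ 2 - 8 * F.a * F.c) ^ 2 =
      3 * (256 * F.a ^ 3 * F.e - 64 * F.a ^ 2 * F.b * F.d + 16 * F.a * F.b ^ 2 * F.c -
        3 * F.b ^ 4) := by simp only [QuarticForm.invI]; ring
    simp only [QuarticForm.eval, Int.cast_id] at h0
    linear_combination 768 * F.a ^ 3 * h0 + r ^ 4 * e
  rw [h.hI] at key3
  have h3 := congrArg (Int.cast : ℤ → ℚ) key3
  have hH := h.hH
  have hR := h.hR
  have ha := congrArg (Int.cast : ℤ → ℚ) h.ha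
  push_cast at h3 hH hR ha
  rw [hH, hR, ← hW, ha] at h3
  refine hnr t ?_
  refine (mul_eq_zero.mp (?_ : 3 * (4 * (D : ℚ) * r) ^ 4 * rootPoly A x y t = 0)).resolve_left
    (mul_ne_zero three_ne_zero (pow_ne_zero 4 (mul_ne_zero (mul_ne_zero four_ne_zero hD) hr')))
  rw [rootPoly]
  linear_combination h3

theorem exists_pointForm (hxy : y ^ 2 = x ^ 3 + A * x + B) : ∃ (F : QuarticForm) (D : ℤ),
    IsPointForm A B x y F D ∧ ∀ q : ℕ, q.Prime → (q : ℤ) ∣ D → q ∣ x.den := by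
  have e : y.num ^ 2 * (x.den : ℤ) ^ 3 =
      (x.num ^ 3 + (A * x.num + B * (x.den : ℤ)) * (x.den : ℤ) ^ 2) * (y.den : ℤ) ^ 2 := by
    have hxd : (x.den : ℚ) ≠ 0 := by exact_mod_cast x.den_nz
    have hyd : (y.den : ℚ) ≠ 0 := by exact_mod_cast y.den_nz
    rw [← x.num_div_den, ← y.num_div_den] at hxy
    field_simp at hxy
    exact_mod_cast (by linear_combination hxy : (y.num : ℚ) ^ 2 * (x.den : ℚ) ^ 3 =
      ((x.num : ℚ) ^ 3 + (A * x.num + B * (x.den : ℚ)) * (x.den : ℚ) ^ 2) * (y.den : ℚ) ^ 2)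
  have hpow : x.den ^ 3 = y.den ^ 2 := by
    have h1 : IsCoprime ((x.den : ℤ) ^ 3)
        (x.num ^ 3 + (A * x.num + B * (x.den : ℤ)) * (x.den : ℤ) ^ 2) := by
      refine IsCoprime.pow_left ?_
      rw [show x.num ^ 3 + (A * x.num + B * (x.den : ℤ)) * (x.den : ℤ) ^ 2 =
        x.num ^ 3 + (x.den : ℤ) * ((A * x.num + B * (x.den : ℤ)) * x.den) by ring]
      exact ((Rat.isCoprime_num_den x).symm.pow_right).add_mul_left_right _
    have h2 : IsCoprime ((y.den : ℤ) ^ 2) (y.num ^ 2) := (Rat.isCoprime_num_den y).symm.pow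
    refine Nat.dvd_antisymm (Int.natCast_dvd_natCast.1 ?_) (Int.natCast_dvd_natCast.1 ?_) <;>
      push_cast
    · exact h1.dvd_of_dvd_mul_left ⟨y.num ^ 2, by linarith⟩
    · exact h2.dvd_of_dvd_mul_left
        ⟨x.num ^ 3 + (A * x.num + B * (x.den : ℤ)) * (x.den : ℤ) ^ 2, by linarith⟩
  obtain ⟨d, hxd, hyd⟩ := Nat.exists_eq_pow_of_exponent_coprime_of_pow_eq_pow
    (by decide : Nat.Coprime 3 2) hpow
  have hd0 : (d : ℤ) ≠ 0 := by
    intro h; exact x.den_nz (by rw [hxd]; simp [Int.natCast_eq_zero.1 h])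
  set X := x.num with hX
  set Y := y.num with hY
  have hYX : Y ^ 2 = X ^ 3 + A * X * (d : ℤ) ^ 4 + B * (d : ℤ) ^ 6 := by
    rw [hxd, hyd] at e
    push_cast at e
    exact mul_right_cancel₀ (pow_ne_zero 6 hd0) (by linear_combination e)
  have hdX : IsCoprime X ((d : ℤ) ^ 6) := by
    have h := Rat.isCoprime_num_den x
    rw [hxd, Nat.cast_pow] at h
    simpa [← pow_mul] using h.pow_right (n := 3)
  obtain ⟨u, v, huv⟩ := hdX
  set D := (d : ℤ) with hDdef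
  set β := Y * u with hβ
  set k₁ := -(X ^ 2 * v) - A * D ^ 4 * v + B * u with hk₁
  set g := u * A + u * D ^ 2 * k₁ - X * v * D ^ 2 with hg
  set k₂ := X * u * k₁ - X ^ 2 * v - A * D ^ 4 * v with hk₂
  have hYu : Y ^ 2 * u = X ^ 2 + A * D ^ 4 + D ^ 6 * k₁ := by
    rw [hk₁]; linear_combination u * hYX + (X ^ 2 + A * D ^ 4) * huv
  have hε : β ^ 2 - X = D ^ 4 * g := by
    rw [hβ, hg]; linear_combination u * hYu + X * huv
  set F : QuarticForm := ⟨D ^ 2, 4 * β, 6 * (D ^ 2 * g), 4 * (β * g + 2 * Y * v * D ^ 2),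
    D ^ 2 * g ^ 2 + 8 * k₁ - 4 * k₂⟩ with hF
  have hI : F.invI = -48 * A := by
    simp only [hF, QuarticForm.invI]
    linear_combination -48 * g * hε - 96 * v * D ^ 2 * Y * hβ - 96 * v * D ^ 2 * hYu -
      (96 * D ^ 2 * k₁ + 48 * A) * huv - 48 * X * hg - 48 * D ^ 2 * hk₂
  have hA : 3 * F.b ^ 2 - 8 * F.a * F.c = 48 * X := by
    simp only [hF]; linear_combination 48 * hε
  have hr : F.b ^ 3 + 8 * F.a ^ 2 * F.d - 4 * F.a * F.b * F.c = 64 * Y := by
    simp only [hF]; linear_combination 64 * β * hε + 64 * X * hβ + 64 * Y * huv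
  have hJ : F.invJ = -1728 * B := by
    have hs := F.syzygy
    rw [hA, hr, hI, show F.a = D ^ 2 from rfl] at hs
    refine mul_left_cancel₀ (pow_ne_zero 6 hd0) ?_
    linarith [show (D ^ 2) ^ 3 * F.invJ = D ^ 6 * F.invJ by ring,
      show (D : ℤ) ^ 6 * (-1728 * B) = -1728 * (Y ^ 2 - X ^ 3 - A * X * D ^ 4) by
        rw [hYX]; ring]
  have hxq : x * (D : ℚ) ^ 2 = X := by
    have := Rat.mul_den_eq_num x
    rw [hxd] at this
    simpa [hDdef] using this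
  have hyq : y * (D : ℚ) ^ 3 = Y := by
    have := Rat.mul_den_eq_num y
    rw [hyd] at this
    simpa [hDdef] using this
  refine ⟨F, D, ⟨hd0, rfl, ?_, ?_, hI, hJ⟩, fun q _ hqd => ?_⟩
  · rw [hA, mul_assoc, hxq]; push_cast; ring
  · rw [hr, mul_assoc, hyq]; push_cast; ring
  · rw [hxd]
    exact dvd_pow (Int.natCast_dvd_natCast.1 hqd) two_ne_zero

/-- The points with `S`-integral `x` whose quartic has no rational root. -/
def rootlessPoints (S : Finset ℕ) (A B : ℤ) : Set (ℚ × ℚ) :=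
  {P | P.2 ^ 2 = P.1 ^ 3 + A * P.1 + B ∧ (∀ q : ℕ, q.Prime → q ∣ P.1.den → q ∈ S) ∧
    ∀ t, rootPoly A P.1 P.2 t ≠ 0}

theorem fibre_bound (A B : ℤ) (x : ℚ) :
    {P : ℚ × ℚ | P.2 ^ 2 = P.1 ^ 3 + A * P.1 + B ∧ P.1 = x}.Finite ∧
      {P : ℚ × ℚ | P.2 ^ 2 = P.1 ^ 3 + A * P.1 + B ∧ P.1 = x}.ncard ≤ 2 := by
  by_cases h : ∃ y : ℚ, y ^ 2 = x ^ 3 + A * x + B
  · obtain ⟨y, hy⟩ := h
    have hsub : {P : ℚ × ℚ | P.2 ^ 2 = P.1 ^ 3 + A * P.1 + B ∧ P.1 = x} ⊆
        (({(x, y), (x, -y)} : Finset (ℚ × ℚ)) : Set (ℚ × ℚ)) := by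
      rintro ⟨x', y'⟩ ⟨h1, rfl⟩
      simp only at h1 hy
      rcases sq_eq_sq_iff_eq_or_eq_neg.1 (h1.trans hy.symm) with e | e <;> simp [e]
    exact ⟨(Finset.finite_toSet _).subset hsub, (Set.ncard_le_ncard hsub
      (Finset.finite_toSet _)).trans ((Set.ncard_coe_finset _).trans_le Finset.card_le_two)⟩
  · have e : {P : ℚ × ℚ | P.2 ^ 2 = P.1 ^ 3 + A * P.1 + B ∧ P.1 = x} = ∅ :=
      Set.eq_empty_iff_forall_notMem.mpr fun P ⟨h1, h2⟩ => h ⟨P.2, h2 ▸ h1⟩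
    rw [e]
    simp

/-- **Boundedly many points to a class.** -/
theorem rootlessPoints_bound (S : Finset ℕ) {A B : ℤ} (hΔ : 4 * A ^ 3 + 27 * B ^ 2 ≠ 0)
    (hfin : (classesAt A B).Finite) : (rootlessPoints S A B).Finite ∧
      (rootlessPoints S A B).ncard ≤ 2 * solBound 4 S.card * (classesAt A B).ncard := by
  have hrep : ∀ c ∈ classesAt A B, ∃ G : QuarticForm, G.Nondegenerate ∧ G.Anisotropic ∧
      slClass G = c := by
    rintro c ⟨G, ⟨h1, h2, -, -⟩, rfl⟩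
    exact ⟨G, h1, h2, rfl⟩
  choose rep hn han hcl using hrep
  set xs : Finset ℚ := hfin.toFinset.attach.biUnion fun c =>
    (quartic_solutions S (hn c.1 (hfin.mem_toFinset.mp c.2))
      (anisotropic_a (han c.1 (hfin.mem_toFinset.mp c.2)))).1.toFinset.image fun z : ℤ × ℤ =>
        (((rep c.1 (hfin.mem_toFinset.mp c.2)).hess z.1 z.2 : ℤ) : ℚ) /
          (48 * (((rep c.1 (hfin.mem_toFinset.mp c.2)).eval z.1 z.2 : ℤ) : ℚ)) with hxs
  have hcard : xs.card ≤ solBound 4 S.card * (classesAt A B).ncard := by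
    refine (Finset.card_biUnion_le).trans ((Finset.sum_le_card_nsmul _ _ (solBound 4 S.card)
      fun c _ => ?_).trans_eq ?_)
    · refine Finset.card_image_le.trans ?_
      rw [← Set.ncard_eq_toFinset_card _ _]
      exact (quartic_solutions S (hn c.1 (hfin.mem_toFinset.mp c.2))
        (anisotropic_a (han c.1 (hfin.mem_toFinset.mp c.2)))).2
    · rw [Finset.card_attach, ← Set.ncard_eq_toFinset_card _ hfin, smul_eq_mul, mul_comm]
  have hmem : ∀ P ∈ rootlessPoints S A B, P.1 ∈ xs := by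
    rintro ⟨x, y⟩ ⟨hxy, hden, hnr⟩
    simp only at hxy hden hnr
    obtain ⟨F, D, hF, hDq⟩ := exists_pointForm hxy
    have hc : slClass F ∈ classesAt A B :=
      ⟨F, ⟨hF.nondegenerate hΔ, hF.anisotropic hnr, hF.hI, hF.hJ⟩, rfl⟩
    set G := rep (slClass F) hc
    obtain ⟨p, q, r, s, hdet, hact⟩ : F ∈ slClass G := by
      rw [hcl (slClass F) hc]; exact mem_slClass_self F
    have hev : G.eval p r = D ^ 2 := by
      rw [← hF.ha, ← hact]; simp [QuarticForm.act]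
    have hhe : G.hess p r = 3 * F.b ^ 2 - 8 * F.a * F.c := by
      rw [← hact]
      have h := G.hess_act (R := ℤ) p q r s 1 0
      simp only [Int.cast_id, hdet] at h
      rw [show (G.act p q r s).hess (1 : ℤ) 0 = 3 * (G.act p q r s).b ^ 2 -
        8 * (G.act p q r s).a * (G.act p q r s).c by simp [QuarticForm.hess]] at h
      simpa using h.symm
    simp only [hxs, Finset.mem_biUnion, Finset.mem_image, Set.Finite.mem_toFinset]
    refine ⟨⟨slClass F, hfin.mem_toFinset.mpr hc⟩, Finset.mem_attach _ _, (p, r),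
      ⟨⟨s, -q, by linear_combination hdet⟩, ?_, fun l hl hld => ?_⟩, ?_⟩
    · show G.eval p r ≠ 0
      rw [hev]
      exact pow_ne_zero 2 hF.hD
    · replace hld : (l : ℤ) ∣ G.eval p r := hld
      rw [hev] at hld
      exact hden l hl (hDq l hl ((Nat.prime_iff_prime_int.1 hl).dvd_of_dvd_pow hld))
    · show ((G.hess p r : ℤ) : ℚ) / (48 * ((G.eval p r : ℤ) : ℚ)) = x
      rw [hev, hhe, hF.hH]
      have : (D : ℚ) ≠ 0 := Int.cast_ne_zero.mpr hF.hD
      push_cast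
      field_simp
  have hsub : rootlessPoints S A B ⊆
      ⋃ x ∈ (xs : Set ℚ), {P : ℚ × ℚ | P.2 ^ 2 = P.1 ^ 3 + A * P.1 + B ∧ P.1 = x} :=
    fun P hP => Set.mem_biUnion (hmem P hP) ⟨hP.1, rfl⟩
  have hU : (⋃ x ∈ (xs : Set ℚ),
      {P : ℚ × ℚ | P.2 ^ 2 = P.1 ^ 3 + A * P.1 + B ∧ P.1 = x}).Finite :=
    xs.finite_toSet.biUnion fun x _ => (fibre_bound A B x).1
  refine ⟨hU.subset hsub, (Set.ncard_le_ncard hsub hU).trans ?_⟩
  refine (Finset.set_ncard_biUnion_le xs _).trans ((Finset.sum_le_card_nsmul _ _ 2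
    fun x _ => (fibre_bound A B x).2).trans ?_)
  rw [smul_eq_mul, mul_comm xs.card, mul_assoc]
  exact Nat.mul_le_mul_left 2 hcard

/-- The integral points. -/
def intPoints (A B : ℤ) : Set (ℤ × ℤ) := {p | p.2 ^ 2 = p.1 ^ 3 + A * p.1 + B}

/-- The integral points `(k, l)` with `l² ∣ 4 A³ + 27 B²`. -/
def torsionLike (A B : ℤ) : Set (ℤ × ℤ) :=
  {p | p.2 ^ 2 = p.1 ^ 3 + A * p.1 + B ∧ p.2 ≠ 0 ∧ p.2 ^ 2 ∣ 4 * A ^ 3 + 27 * B ^ 2}

/-- The point of which an integral point with a root is the double. -/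
theorem exists_half {A B x y : ℤ} (hΔ : 4 * A ^ 3 + 27 * B ^ 2 ≠ 0)
    (hxy : y ^ 2 = x ^ 3 + A * x + B) {t : ℚ} (ht : rootPoly A x y t = 0) :
    ∃ k l τ : ℤ, (k, l) ∈ torsionLike A B ∧ 2 * τ * l = 3 * k ^ 2 + A ∧ x = τ ^ 2 - 2 * k ∧
      y = l - τ * k + τ * x := by
  have hd : t.den = 1 := by
    have hn : ((t.num : ℤ) ^ 4 : ℚ) = (t.den : ℚ) *
        ((t.den : ℚ) * (6 * x * t.num ^ 2 + ((t.den : ℚ)) * (-8 * y * t.num +
          (t.den : ℚ) * (4 * A + 3 * x ^ 2)))) := by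
      have hden : (t.den : ℚ) ≠ 0 := by exact_mod_cast t.den_nz
      rw [rootPoly, ← t.num_div_den] at ht
      field_simp at ht
      linear_combination ht
    have hn' : t.num ^ 4 = (t.den : ℤ) * ((t.den : ℤ) * (6 * x * t.num ^ 2 + (t.den : ℤ) *
        (-8 * y * t.num + (t.den : ℤ) * (4 * A + 3 * x ^ 2)))) := by
      exact_mod_cast hn
    have h1 : IsUnit (t.den : ℤ) :=
      ((Rat.isCoprime_num_den t).symm.pow_right (n := 4)).isUnit_of_dvd ⟨_, hn'⟩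
    rcases Int.isUnit_iff.mp h1 with h | h <;> omega
  set τ := t.num
  have hz : τ ^ 4 - 6 * x * τ ^ 2 + 8 * y * τ - 4 * A - 3 * x ^ 2 = 0 := by
    rw [rootPoly, ← Rat.coe_int_num_of_den_eq_one hd] at ht
    exact_mod_cast ht
  obtain ⟨w, hw⟩ : Even (τ ^ 2 - 3 * x) := by
    have h2 : Even ((τ ^ 2 - 3 * x) ^ 2) :=
      ⟨2 * (3 * x ^ 2 + A - 2 * y * τ), by linear_combination hz⟩
    exact (Int.even_pow' two_ne_zero).mp h2
  set k := w + x
  set n := y - τ * x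
  set l := τ * k + n with hl
  have hx : x = τ ^ 2 - 2 * k := by linear_combination -hw
  have hA : A = 2 * τ * n + k ^ 2 + 2 * k * x := by
    refine mul_left_cancel₀ (show (4 : ℤ) ≠ 0 by norm_num) ?_
    rw [hx] at hz
    simp only [n]
    rw [hx]
    linear_combination -hz
  have hB : B = n ^ 2 - k ^ 2 * x := by
    simp only [n] at hA ⊢
    linear_combination -hxy - x * hA + x ^ 2 * hx + 2 * x ^ 2 * hw
  have hkl : l ^ 2 = k ^ 3 + A * k + B := by rw [hl, hA, hB, hx]; ring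
  have hder : 2 * τ * l = 3 * k ^ 2 + A := by rw [hl, hA, hx]; ring
  refine ⟨k, l, τ, ⟨hkl, fun h0 => hΔ ?_, ?_⟩, hder, hx, by rw [hl]; simp only [n]; ring⟩
  · simp only at h0
    rw [h0, mul_zero] at hder
    rw [h0] at hkl
    have hA' : A = -3 * k ^ 2 := by linarith
    have hB' : B = 2 * k ^ 3 := by rw [hA'] at hkl; linear_combination -hkl
    rw [hA', hB']; ring
  · refine ⟨4 * (-36 * k ^ 2 * τ ^ 2) + 8 * 4 * τ ^ 3 * l +
      27 * (4 * k ^ 3 + 4 * k ^ 2 * τ ^ 2 - 4 * k * τ * l + l ^ 2), ?_⟩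
    show 4 * A ^ 3 + 27 * B ^ 2 = l ^ 2 * _
    have e1 : A = 2 * τ * l - 3 * k ^ 2 := by linarith
    have e2 : B = l ^ 2 - k ^ 3 - A * k := by linarith
    rw [e2, e1]
    ring

/-- **Integral points.** -/
theorem intPoints_bound {A B : ℤ} (hΔ : 4 * A ^ 3 + 27 * B ^ 2 ≠ 0)
    (hfin : (classesAt A B).Finite) (htl : (torsionLike A B).Finite) :
    (intPoints A B).Finite ∧ (intPoints A B).ncard ≤
      2 * solBound 4 0 * (classesAt A B).ncard + (torsionLike A B).ncard := by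
  obtain ⟨hR, hRb⟩ := rootlessPoints_bound ∅ hΔ hfin
  rw [Finset.card_empty] at hRb
  set j : ℤ × ℤ → ℚ × ℚ := fun p => ((p.1 : ℚ), (p.2 : ℚ))
  have hj : Function.Injective j := fun a b h => by
    simp only [j, Prod.mk.injEq, Int.cast_inj] at h
    exact Prod.ext h.1 h.2
  set I : Set (ℤ × ℤ) := {p ∈ intPoints A B | ∃ t, rootPoly A p.1 p.2 t = 0}
  have hsub : intPoints A B ⊆ j ⁻¹' rootlessPoints ∅ A B ∪ I := by
    intro p hp
    by_cases h : ∃ t, rootPoly A p.1 p.2 t = 0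
    · exact Or.inr ⟨hp, h⟩
    · refine Or.inl ⟨?_, fun q hq hd => ?_, fun t ht => h ⟨t, ht⟩⟩
      · have hp' : p.2 ^ 2 = p.1 ^ 3 + A * p.1 + B := hp
        show ((p.2 : ℚ)) ^ 2 = (p.1 : ℚ) ^ 3 + (A : ℚ) * p.1 + B
        exact_mod_cast hp'
      · simp only [j, Rat.den_intCast] at hd
        exact absurd (Nat.dvd_one.1 hd) hq.ne_one
  let g : ℤ × ℤ → ℤ × ℤ := fun p =>
    let τ := (3 * p.1 ^ 2 + A) / (2 * p.2)
    (τ ^ 2 - 2 * p.1, p.2 - τ * p.1 + τ * (τ ^ 2 - 2 * p.1))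
  have hI : I ⊆ g '' torsionLike A B := by
    rintro ⟨x, y⟩ ⟨hp, t, ht⟩
    obtain ⟨k, l, τ, hmem, hder, hx, hy⟩ := exists_half hΔ hp ht
    refine ⟨(k, l), hmem, ?_⟩
    have hl : 2 * l ≠ 0 := mul_ne_zero two_ne_zero hmem.2.1
    have hτ : (3 * k ^ 2 + A) / (2 * l) = τ := by
      rw [← hder, show 2 * τ * l = τ * (2 * l) by ring, Int.mul_ediv_cancel _ hl]
    simp only [g, hτ, Prod.mk.injEq]
    simp only at hx hy
    exact ⟨hx.symm, by rw [hy, hx]⟩
  have hIfin : I.Finite := (htl.image g).subset hI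
  have hpre : (j ⁻¹' rootlessPoints ∅ A B).Finite := hR.preimage hj.injOn
  refine ⟨(hpre.union hIfin).subset hsub, (Set.ncard_le_ncard hsub (hpre.union hIfin)).trans
    ((Set.ncard_union_le _ _).trans (add_le_add ?_ ?_))⟩
  · exact (Set.ncard_le_ncard_of_injOn j (fun p hp => hp) hj.injOn hR).trans hRb
  · exact (Set.ncard_le_ncard hI (htl.image g)).trans (Set.ncard_image_le htl)

end FA.IntegralAverage
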