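import Fermat.Agent.Root.SummaryEvertseThueMahler
import Fermat.Agent.SiegelPoints.Quartic
import Fermat.Agent.Thue.CubicForms

/-!
# Uniform bounds for the Thue–Mahler equations of quartic and cubic forms

Evertse's bound applied to binary forms of non-zero discriminant: the number of coprime solutions
depends on the number of primes alone, not on the coefficients.
-/

set_option autoImplicit false

noncomputable section

open FA.SiegelPoints FA.Thue

namespace FA.IntegralAverage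

/-- The coprime pairs at which the value `v` is non-zero with all prime factors in `S`. -/
def valueSet (S : Finset ℕ) (v : ℤ → ℤ → ℤ) : Set (ℤ × ℤ) :=
  {z | IsCoprime z.1 z.2 ∧ v z.1 z.2 ≠ 0 ∧ ∀ q : ℕ, q.Prime → (q : ℤ) ∣ v z.1 z.2 → q ∈ S}

/-- Evertse's bound. -/
def solBound (n t : ℕ) : ℕ := 1110 * 5 ^ (19 * (2 * (n.factorial * (t + 1)) + 1))

theorem valueSet_bound {n : ℕ} {F : MvPolynomial (Fin 2) ℤ} (hF : F.IsHomogeneous n)
    {r₀ r₁ r₂ : ℂ} (h01 : r₀ ≠ r₁) (h02 : r₀ ≠ r₂) (h12 : r₁ ≠ r₂)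
    (hr : ∀ r ∈ [r₀, r₁, r₂], MvPolynomial.aeval ![r, 1] F = 0) (S : Finset ℕ) :
    (valueSet S fun p q => MvPolynomial.aeval ![p, q] F).Finite ∧
      (valueSet S fun p q => MvPolynomial.aeval ![p, q] F).ncard ≤ solBound n S.card := by
  obtain ⟨hfin, hcard⟩ := FA.Summary.evertse_thue_mahler hF
    ⟨![![r₀, 1], ![r₁, 1], ![r₂, 1]], fun i => by fin_cases i <;> exact hr _ (by simp),
      fun i j hij => by
        fin_cases i <;> fin_cases j <;> simp [h01, h02, h12, h01.symm, h02.symm, h12.symm] at hij ⊢⟩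
    S
  set f : ℤ × ℤ → Fin 2 → ℤ := fun z => ![z.1, z.2]
  have hinj : Function.Injective f := fun a b h =>
    Prod.ext (by simpa [f] using congrFun h 0) (by simpa [f] using congrFun h 1)
  have hmaps : Set.MapsTo f (valueSet S fun p q => MvPolynomial.aeval ![p, q] F)
      {w : Fin 2 → ℤ | IsCoprime (w 0) (w 1) ∧ MvPolynomial.aeval w F ≠ 0 ∧
        ∀ p : ℕ, p.Prime → (p : ℤ) ∣ MvPolynomial.aeval w F → p ∈ S} :=
    fun z hz => by
      obtain ⟨h1, h2, h3⟩ := hz
      exact ⟨by simpa [f] using h1, h2, h3⟩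
  refine ⟨(hfin.preimage hinj.injOn).subset hmaps, le_trans ?_ hcard⟩
  exact Set.ncard_le_ncard_of_injOn f hmaps hinj.injOn hfin

/-- **Quartic forms.** -/
theorem quartic_solutions (S : Finset ℕ) {F : QuarticForm} (hF : F.Nondegenerate) (ha : F.a ≠ 0) :
    (valueSet S fun p q => F.eval p q).Finite ∧
      (valueSet S fun p q => F.eval p q).ncard ≤ solBound 4 S.card := by
  obtain ⟨θ, hθ, -, hb, hc, hd, he⟩ := QuarticForm.exists_roots hF ha
  set P : MvPolynomial (Fin 2) ℤ := MvPolynomial.C F.a * MvPolynomial.X 0 ^ 4 +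
    MvPolynomial.C F.b * (MvPolynomial.X 0 ^ 3 * MvPolynomial.X 1 ^ 1) +
    MvPolynomial.C F.c * (MvPolynomial.X 0 ^ 2 * MvPolynomial.X 1 ^ 2) +
    MvPolynomial.C F.d * (MvPolynomial.X 0 ^ 1 * MvPolynomial.X 1 ^ 3) +
    MvPolynomial.C F.e * MvPolynomial.X 1 ^ 4 with hP
  have hhom : P.IsHomogeneous 4 := by
    refine ((((MvPolynomial.isHomogeneous_X_pow _ _).C_mul _).add ?_).add ?_).add ?_ |>.add
      ((MvPolynomial.isHomogeneous_X_pow _ _).C_mul _)
    all_goals exact ((MvPolynomial.isHomogeneous_X_pow _ _).mul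
      (MvPolynomial.isHomogeneous_X_pow _ _)).C_mul _
  have hroot : ∀ i, MvPolynomial.aeval ![θ i, 1] P = 0 := by
    intro i
    simp [hP, hb, hc, hd, he]
    have hi : ∀ j : Fin 4, j = 0 ∨ j = 1 ∨ j = 2 ∨ j = 3 := by decide
    rcases hi i with rfl | rfl | rfl | rfl <;> ring
  have := valueSet_bound hhom (hθ.ne (show (0 : Fin 4) ≠ 1 by decide))
    (hθ.ne (show (0 : Fin 4) ≠ 2 by decide)) (hθ.ne (show (1 : Fin 4) ≠ 2 by decide))
    (by simp [hroot]) S
  simpa [hP, QuarticForm.eval, mul_assoc] using this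

/-- **Cubic forms.** -/
theorem cubic_solutions (S : Finset ℕ) {F : CubicForm} (hD : F.disc ≠ 0) (ha : F.a ≠ 0) :
    (valueSet S fun p q => F.eval p q).Finite ∧
      (valueSet S fun p q => F.eval p q).ncard ≤ solBound 3 S.card := by
  set Q : Cubic ℚ := ⟨F.a, F.b, F.c, F.d⟩ with hQ
  have ha' : Q.a ≠ 0 := Int.cast_ne_zero.mpr ha
  have hD' : Q.discr ≠ 0 := by
    have : Q.discr = (F.disc : ℚ) := by simp [hQ, Cubic.discr, CubicForm.disc]
    rw [this]
    exact Int.cast_ne_zero.mpr hD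
  obtain ⟨r₀, r₁, r₂, h3⟩ := (Cubic.splits_iff_roots_eq_three (φ := algebraMap ℚ ℂ) (P := Q)
    ha').mp (IsAlgClosed.splits _)
  have hne := (Cubic.discr_ne_zero_iff_roots_ne (φ := algebraMap ℚ ℂ) (P := Q) ha' h3).mp hD'
  set P : MvPolynomial (Fin 2) ℤ := MvPolynomial.C F.a * MvPolynomial.X 0 ^ 3 +
    MvPolynomial.C F.b * (MvPolynomial.X 0 ^ 2 * MvPolynomial.X 1 ^ 1) +
    MvPolynomial.C F.c * (MvPolynomial.X 0 ^ 1 * MvPolynomial.X 1 ^ 2) +
    MvPolynomial.C F.d * MvPolynomial.X 1 ^ 3 with hP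
  have hhom : P.IsHomogeneous 3 := by
    refine (((MvPolynomial.isHomogeneous_X_pow _ _).C_mul _).add ?_).add ?_ |>.add
      ((MvPolynomial.isHomogeneous_X_pow _ _).C_mul _)
    all_goals exact ((MvPolynomial.isHomogeneous_X_pow _ _).mul
      (MvPolynomial.isHomogeneous_X_pow _ _)).C_mul _
  have h0 : (Cubic.map (algebraMap ℚ ℂ) Q).toPoly ≠ 0 :=
    Cubic.ne_zero_of_a_ne_zero (by simpa [Cubic.map, hQ] using ha)
  have hroot : ∀ r ∈ [r₀, r₁, r₂], MvPolynomial.aeval ![r, 1] P = 0 := by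
    intro r hr
    have hm : r ∈ (Cubic.map (algebraMap ℚ ℂ) Q).roots := by
      rw [h3]; simpa using hr
    rw [Cubic.mem_roots_iff h0] at hm
    simp [Cubic.map, hQ] at hm
    simp [hP]
    linear_combination hm
  have := valueSet_bound hhom hne.1 hne.2.1 hne.2.2 hroot S
  simpa [hP, CubicForm.eval, mul_assoc] using this

end FA.IntegralAverage
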