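import Fermat.Agent.IntegralAverage.Quartic
import Mathlib.NumberTheory.Harmonic.Bounds

/-!
# The average number of integral points is bounded

For `|A| ≤ U⁴`, `|B| ≤ U⁶` there are `O(U¹⁰)` integral `(k, l)` with `l² = k³ + A k + B` and
`l² ∣ 4 A³ + 27 B²`; with the count of classes this bounds the integral points on average.
-/

set_option autoImplicit false

noncomputable section

open FA.SiegelPoints FA.AverageRank Finset
open scoped Classical

namespace FA.IntegralAverage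

/-- Integers with pairwise differences at most `d`. -/
theorem card_le_of_diameter {s : Finset ℤ} {d : ℝ} (hd : 0 ≤ d)
    (h : ∀ a ∈ s, ∀ b ∈ s, |(a : ℝ) - b| ≤ d) : (s.card : ℝ) ≤ d + 1 := by
  rcases s.eq_empty_or_nonempty with rfl | hne
  · simp; linarith
  have hsub : s ⊆ Icc (s.min' hne) (s.min' hne + ⌊d⌋) := fun b hb => mem_Icc.mpr
    ⟨s.min'_le b hb, by
      have := Int.le_floor.mpr (by
        push_cast
        exact (le_abs_self _).trans (h b hb _ (s.min'_mem hne)) :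
          ((b - s.min' hne : ℤ) : ℝ) ≤ d)
      linarith⟩
  have hc := card_le_card hsub
  rw [Int.card_Icc] at hc
  have h0 : 0 ≤ ⌊d⌋ := Int.floor_nonneg.mpr hd
  have : (s.card : ℤ) ≤ ⌊d⌋ + 1 := by omega
  have : (s.card : ℝ) ≤ (⌊d⌋ : ℝ) + 1 := by exact_mod_cast this
  linarith [Int.floor_le d]

/-- The candidates for the ordinates over `k`. -/
def nearRoots (A : ℤ) (U : ℝ) (k : ℤ) : Set ℤ :=
  {l | |(l : ℝ) ^ 2 - (k : ℝ) ^ 3 - A * k| ≤ U ^ 6}

theorem nearRoots_iff {A : ℤ} {U : ℝ} {k l : ℤ} :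
    l ∈ nearRoots A U k ↔ |(l : ℝ) ^ 2 - (k : ℝ) ^ 3 - A * k| ≤ U ^ 6 := Iff.rfl

/-- The candidates `(k, l)`. -/
def candidates (A : ℤ) (U : ℝ) : Finset (ℤ × ℤ) :=
  ((Icc (-⌊4 * U ^ 4⌋) ⌊4 * U ^ 4⌋) ×ˢ (Icc (-⌊6 * U ^ 6⌋) ⌊6 * U ^ 6⌋)).filter
    fun p => p.2 ∈ nearRoots A U p.1

theorem log_four_pow_le {U : ℝ} (hU : 1 ≤ U) : Real.log (4 * U ^ 4) ≤ 4 * U := by
  rw [Real.log_mul (by norm_num) (by positivity), Real.log_pow, show (4 : ℝ) = 2 ^ 2 by norm_num,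
    Real.log_pow]
  have h1 := Real.log_le_sub_one_of_pos (show 0 < U by linarith)
  have h2 := Real.log_two_lt_d9
  push_cast
  linarith

theorem card_nearRoots_large {A : ℤ} {U : ℝ} (hU : 1 ≤ U) (hA : |(A : ℝ)| ≤ U ^ 4) {k : ℤ}
    (hk : 2 * U ^ 2 < |(k : ℝ)|) (s : Finset ℤ) (hs : ∀ l ∈ s, l ∈ nearRoots A U k) :
    (s.card : ℝ) ≤ 4 * U ^ 5 / |(k : ℝ)| + 2 := by
  have hU0 : 0 < U := by linarith
  have hA' := abs_le.mp hA
  rcases le_or_gt (k : ℝ) 0 with hneg | hpos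
  · have he : s = ∅ := eq_empty_of_forall_notMem fun l hl => by
      have h := (abs_le.mp (nearRoots_iff.mp (hs l hl))).2
      rw [abs_of_nonpos hneg] at hk
      set m := -(k : ℝ) with hm
      have h1 : (k : ℝ) = -m := by rw [hm]; ring
      rw [h1] at h
      have h2 : U ^ 6 < m ^ 3 + (A : ℝ) * m := by
        have a : 4 * U ^ 4 ≤ m ^ 2 := by nlinarith
        have b : 3 * U ^ 4 ≤ m ^ 2 + (A : ℝ) := by linarith
        have c : U ^ 6 < m * (3 * U ^ 4) := by nlinarith [pow_pos hU0 4, pow_pos hU0 6]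
        nlinarith [mul_le_mul_of_nonneg_left b (by nlinarith : (0 : ℝ) ≤ m)]
      nlinarith [sq_nonneg (l : ℝ)]
    rw [he]
    simp only [card_empty, Nat.cast_zero]
    positivity
  rw [abs_of_pos hpos] at hk ⊢
  set c := (k : ℝ) ^ 3 + (A : ℝ) * k
  have hlow : 5 / 8 * (k : ℝ) ^ 3 ≤ c - U ^ 6 := by
    have a : 4 * U ^ 4 ≤ (k : ℝ) ^ 2 := by nlinarith
    have b : -((k : ℝ) ^ 3 / 4) ≤ (A : ℝ) * k := by nlinarith [mul_le_mul_of_nonneg_right a hpos.le]
    have d : U ^ 6 ≤ (k : ℝ) ^ 3 / 8 := by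
      have := mul_le_mul a hk.le (by positivity) (by positivity)
      nlinarith
    simp only [c]
    linarith
  have hsign : ∀ t : Finset ℤ, (∀ l ∈ t, l ∈ nearRoots A U k ∧ 0 ≤ l) →
      (t.card : ℝ) ≤ 2 * U ^ 5 / k + 1 := by
    intro t ht
    refine card_le_of_diameter (by positivity) fun a ha b hb => ?_
    obtain ⟨ha1, ha0⟩ := ht a ha
    obtain ⟨hb1, hb0⟩ := ht b hb
    have ha2 := abs_le.mp (nearRoots_iff.mp ha1)
    have hb2 := abs_le.mp (nearRoots_iff.mp hb1)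
    have ha0' : (0 : ℝ) ≤ a := by exact_mod_cast ha0
    have hb0' : (0 : ℝ) ≤ b := by exact_mod_cast hb0
    have hal : 5 / 8 * (k : ℝ) ^ 3 ≤ (a : ℝ) ^ 2 := by simp only [c] at hlow; linarith
    have hbl : 5 / 8 * (k : ℝ) ^ 3 ≤ (b : ℝ) ^ 2 := by simp only [c] at hlow; linarith
    have hsum : (k : ℝ) * U ≤ (a : ℝ) + b := by
      refine (pow_le_pow_iff_left₀ (by positivity) (by positivity) two_ne_zero).mp ?_
      have hab : 5 / 8 * (k : ℝ) ^ 3 ≤ (a : ℝ) * b := by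
        refine (pow_le_pow_iff_left₀ (by positivity) (by positivity) two_ne_zero).mp ?_
        have := mul_le_mul hal hbl (by positivity) (by positivity)
        nlinarith
      nlinarith [mul_le_mul_of_nonneg_left hk.le (sq_nonneg (k : ℝ))]
    rw [le_div_iff₀ hpos]
    have hdiff : |(a : ℝ) - b| * ((a : ℝ) + b) ≤ 2 * U ^ 6 := by
      rw [← abs_of_nonneg (add_nonneg ha0' hb0'), ← abs_mul, abs_le]
      constructor <;> nlinarith
    refine le_of_mul_le_mul_right ?_ hU0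
    calc |(a : ℝ) - b| * k * U = |(a : ℝ) - b| * (k * U) := by ring
      _ ≤ |(a : ℝ) - b| * ((a : ℝ) + b) := mul_le_mul_of_nonneg_left hsum (abs_nonneg _)
      _ ≤ _ := by linarith
  have h1 := hsign (s.filter fun l => 0 ≤ l) fun l hl =>
    ⟨hs l (mem_filter.mp hl).1, (mem_filter.mp hl).2⟩
  have h2 := hsign ((s.filter fun l => ¬ 0 ≤ l).image fun l => -l) fun l hl => by
    obtain ⟨m, hm, rfl⟩ := mem_image.mp hl
    obtain ⟨hm1, hm2⟩ := mem_filter.mp hm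
    refine ⟨?_, by omega⟩
    have := hs m hm1
    simpa [nearRoots] using this
  rw [card_image_of_injective _ neg_injective] at h2
  have h3 := (card_filter_add_card_filter_not (s := s) (fun l : ℤ => 0 ≤ l))
  rw [show (s.card : ℝ) = ((s.filter fun l => 0 ≤ l).card : ℝ) +
    ((s.filter fun l => ¬ 0 ≤ l).card : ℝ) by exact_mod_cast h3.symm]
  rw [show 4 * U ^ 5 / (k : ℝ) = 2 * U ^ 5 / k + 2 * U ^ 5 / k by ring]
  linarith

/-- **`O(U⁶)` candidates.** -/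
theorem card_candidates {A : ℤ} {U : ℝ} (hU : 1 ≤ U) (hA : |(A : ℝ)| ≤ U ^ 4) :
    ((candidates A U).card : ℝ) ≤ 118 * U ^ 6 := by
  have hU0 : 0 < U := by linarith
  set Ks := Icc (-⌊4 * U ^ 4⌋) ⌊4 * U ^ 4⌋
  set fib : ℤ → Finset ℤ := fun k =>
    (Icc (-⌊6 * U ^ 6⌋) ⌊6 * U ^ 6⌋).filter fun l => l ∈ nearRoots A U k
  have hsplit : (candidates A U).card = ∑ k ∈ Ks, (fib k).card := by
    rw [candidates, card_filter, sum_product]
    exact sum_congr rfl fun k _ => (card_filter _ _).symm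
  have hsmall : ∀ k : ℤ, |(k : ℝ)| ≤ 2 * U ^ 2 → ((fib k).card : ℝ) ≤ 9 * U ^ 3 := by
    intro k hk
    refine (card_le_of_diameter (d := 8 * U ^ 3) (by positivity) fun a ha b hb => ?_).trans
      (by linarith [one_le_pow₀ (n := 3) hU])
    have bd : ∀ l : ℤ, l ∈ nearRoots A U k → |(l : ℝ)| ≤ 4 * U ^ 3 := by
      intro l hl
      have h := (abs_le.mp (nearRoots_iff.mp hl)).2
      refine (pow_le_pow_iff_left₀ (abs_nonneg _) (by positivity) two_ne_zero).mp ?_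
      rw [sq_abs]
      have e1 : (k : ℝ) ^ 3 ≤ |(k : ℝ)| ^ 3 := by rw [← abs_pow]; exact le_abs_self _
      have e2 : (A : ℝ) * k ≤ |(A : ℝ)| * |(k : ℝ)| := by rw [← abs_mul]; exact le_abs_self _
      have e3 := pow_le_pow_left₀ (abs_nonneg _) hk 3
      have e4 := mul_le_mul hA hk (abs_nonneg _) (by positivity)
      nlinarith
    have := abs_sub (a : ℝ) (b : ℝ)
    linarith [bd a (mem_filter.mp ha).2, bd b (mem_filter.mp hb).2]
  have hlarge : ∀ k : ℤ, 2 * U ^ 2 < |(k : ℝ)| →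
      ((fib k).card : ℝ) ≤ 4 * U ^ 5 / |(k : ℝ)| + 2 :=
    fun k hk => card_nearRoots_large hU hA hk _ fun l hl => (mem_filter.mp hl).2
  rw [hsplit, Nat.cast_sum]
  have hterm : ∀ k ∈ Ks, ((fib k).card : ℝ) ≤
      (if |(k : ℝ)| ≤ 2 * U ^ 2 then 9 * U ^ 3 else 0) + (4 * U ^ 5 * (|(k : ℝ)|)⁻¹ + 2) := by
    intro k _
    have h0 : 0 ≤ 4 * U ^ 5 * (|(k : ℝ)|)⁻¹ + 2 := by positivity
    split_ifs with h
    · linarith [hsmall k h]
    · rw [zero_add, ← div_eq_mul_inv]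
      exact hlarge k (not_le.mp h)
  refine (sum_le_sum hterm).trans ?_
  rw [sum_add_distrib, sum_add_distrib, ← mul_sum, sum_const, nsmul_eq_mul, ← sum_filter,
    sum_const, nsmul_eq_mul]
  set N := ⌊4 * U ^ 4⌋₊
  have hN : (N : ℝ) ≤ 4 * U ^ 4 := Nat.floor_le (by positivity)
  have hNK : ⌊4 * U ^ 4⌋ = (N : ℤ) := (Int.natCast_floor_eq_floor (by positivity)).symm
  have hcard : (Ks.card : ℝ) ≤ 9 * U ^ 4 := by
    simp only [Ks, hNK, card_Icc_sym]
    push_cast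
    linarith [one_le_pow₀ (n := 4) hU]
  have hfil : (((Ks.filter fun k : ℤ => |(k : ℝ)| ≤ 2 * U ^ 2).card : ℕ) : ℝ) ≤ 5 * U ^ 2 := by
    refine (card_le_of_diameter (d := 4 * U ^ 2) (by positivity) fun a ha b hb => ?_).trans
      (by linarith [one_le_pow₀ (n := 2) hU])
    have := abs_sub (a : ℝ) (b : ℝ)
    linarith [(mem_filter.mp ha).2, (mem_filter.mp hb).2]
  have hinv : ∑ k ∈ Ks, (|(k : ℝ)|)⁻¹ ≤ 2 * (1 + 4 * U) := by
    have hpos : ∑ n ∈ Icc 1 N, ((n : ℝ))⁻¹ ≤ 1 + 4 * U := by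
      have h := harmonic_le_one_add_log N
      rw [harmonic_eq_sum_Icc] at h
      push_cast at h
      refine h.trans ?_
      rcases Nat.eq_zero_or_pos N with h0 | h0
      · rw [h0]; simp; linarith
      · linarith [(Real.log_le_log (by exact_mod_cast h0) hN).trans (log_four_pow_le hU)]
    have hsub : Ks ⊆ insert 0 (((Icc 1 N).image fun n : ℕ => (n : ℤ)) ∪
        ((Icc 1 N).image fun n : ℕ => -(n : ℤ))) := by
      intro k hk
      simp only [Ks, hNK, mem_Icc] at hk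
      simp only [mem_insert, mem_union, mem_image, mem_Icc]
      rcases lt_trichotomy k 0 with h | h | h
      · exact Or.inr (Or.inr ⟨k.natAbs, by omega, by omega⟩)
      · exact Or.inl h
      · exact Or.inr (Or.inl ⟨k.natAbs, by omega, by omega⟩)
    refine (sum_le_sum_of_subset_of_nonneg hsub fun _ _ _ => by positivity).trans ?_
    rw [sum_insert (by simp), sum_union (by
      rw [disjoint_left]
      intro k h1 h2
      simp only [mem_image, mem_Icc] at h1 h2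
      obtain ⟨a, ha, rfl⟩ := h1
      obtain ⟨b, hb, e⟩ := h2
      omega), sum_image (fun a _ b _ e => Nat.cast_injective e),
      sum_image (fun a _ b _ e => Nat.cast_injective (neg_injective e))]
    simp only [Int.cast_zero, abs_zero, inv_zero, zero_add, Int.cast_neg, abs_neg, Int.cast_natCast,
      Nat.abs_cast]
    linarith
  have p1 : U ^ 4 ≤ U ^ 6 := pow_le_pow_right₀ hU (by norm_num)
  have p2 : U ^ 5 ≤ U ^ 6 := pow_le_pow_right₀ hU (by norm_num)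
  have e1 := mul_le_mul_of_nonneg_left hinv (by positivity : (0 : ℝ) ≤ 4 * U ^ 5)
  have e2 := mul_le_mul_of_nonneg_right hfil (by positivity : (0 : ℝ) ≤ 9 * U ^ 3)
  nlinarith

/-- The points `(k, l)` lie among the candidates. -/
theorem torsionLike_subset {A B : ℤ} {U : ℝ} (hU : 1 ≤ U) (hA : |(A : ℝ)| ≤ U ^ 4)
    (hB : |(B : ℝ)| ≤ U ^ 6) (hΔ : 4 * A ^ 3 + 27 * B ^ 2 ≠ 0) :
    torsionLike A B ⊆ (candidates A U : Set (ℤ × ℤ)) := by
  rintro ⟨k, l⟩ ⟨he, -, hd⟩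
  simp only at he hd
  have he' : (l : ℝ) ^ 2 = (k : ℝ) ^ 3 + A * k + B := by exact_mod_cast he
  have hU0 : 0 < U := by linarith
  have hl : (l : ℝ) ^ 2 ≤ 31 * U ^ 12 := by
    have h1 : |l ^ 2| ≤ |4 * A ^ 3 + 27 * B ^ 2| :=
      Int.le_of_dvd (abs_pos.mpr hΔ) ((abs_dvd_abs _ _).mpr hd)
    have h2 : |((l : ℝ)) ^ 2| ≤ |4 * (A : ℝ) ^ 3 + 27 * (B : ℝ) ^ 2| := by exact_mod_cast h1
    rw [abs_of_nonneg (sq_nonneg _)] at h2
    refine h2.trans ((abs_add_le _ _).trans ?_)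
    rw [abs_mul, abs_mul, abs_pow, abs_pow, Nat.abs_ofNat, Nat.abs_ofNat]
    have a := pow_le_pow_left₀ (abs_nonneg _) hA 3
    have b := pow_le_pow_left₀ (abs_nonneg _) hB 2
    nlinarith
  have hk : |(k : ℝ)| ≤ 4 * U ^ 4 := by
    by_contra hcon
    rw [not_le] at hcon
    have hk3 : |(k : ℝ)| ^ 3 ≤ (l : ℝ) ^ 2 + |(A : ℝ)| * |(k : ℝ)| + |(B : ℝ)| := by
      rw [← abs_pow, show (k : ℝ) ^ 3 = (l : ℝ) ^ 2 - A * k - B by linarith]
      refine (abs_sub _ _).trans (add_le_add ((abs_sub _ _).trans ?_) le_rfl)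
      rw [abs_of_nonneg (sq_nonneg _), abs_mul]
    set m := |(k : ℝ)|
    have a : 16 * U ^ 8 ≤ m ^ 2 := by
      nlinarith [mul_self_le_mul_self (by positivity : (0 : ℝ) ≤ 4 * U ^ 4) hcon.le]
    have b := mul_le_mul_of_nonneg_left a (abs_nonneg (k : ℝ))
    have c := mul_le_mul_of_nonneg_right hA (abs_nonneg (k : ℝ))
    have d : U ^ 4 ≤ U ^ 8 := pow_le_pow_right₀ hU (by norm_num)
    have e : U ^ 6 ≤ U ^ 12 := pow_le_pow_right₀ hU (by norm_num)
    nlinarith [mul_le_mul_of_nonneg_left d (abs_nonneg (k : ℝ)),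
      mul_lt_mul_of_pos_right hcon (pow_pos hU0 8)]
  have hl' : |(l : ℝ)| ≤ 6 * U ^ 6 := by
    refine (pow_le_pow_iff_left₀ (abs_nonneg _) (by positivity) two_ne_zero).mp ?_
    rw [sq_abs]
    nlinarith [pow_pos hU0 12]
  have cast : ∀ {z : ℤ} {m : ℝ}, |(z : ℝ)| ≤ m → z ∈ Icc (-⌊m⌋) ⌊m⌋ := by
    intro z m h
    obtain ⟨h1, h2⟩ := abs_le.mp h
    have h3 : -z ≤ ⌊m⌋ := Int.le_floor.mpr (by push_cast; linarith)
    exact mem_Icc.mpr ⟨by linarith, Int.le_floor.mpr h2⟩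
  refine mem_coe.mpr (mem_filter.mpr ⟨mem_product.mpr ⟨cast hk, cast hl'⟩, ?_⟩)
  show |(l : ℝ) ^ 2 - (k : ℝ) ^ 3 - A * k| ≤ U ^ 6
  rw [show (l : ℝ) ^ 2 - (k : ℝ) ^ 3 - A * k = B by linarith]
  exact hB

theorem exists_U {X : ℕ} (hX : 1 ≤ X) : ∃ U : ℝ, 1 ≤ U ∧ U ^ 12 = (X : ℝ) ∧
    (∀ p ∈ pairsUpTo X, |(p.1 : ℝ)| ≤ U ^ 4 ∧ |(p.2 : ℝ)| ≤ U ^ 6 ∧
      4 * p.1 ^ 3 + 27 * p.2 ^ 2 ≠ 0) ∧
    U ^ 10 ≤ 8 * ((minimalPairs X).card : ℝ) := by
  set U : ℝ := (X : ℝ) ^ ((12 : ℝ)⁻¹)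
  have hU12 : U ^ 12 = (X : ℝ) := by
    simpa using Real.rpow_inv_natCast_pow (Nat.cast_nonneg (α := ℝ) X) (by norm_num : (12 : ℕ) ≠ 0)
  have hU : 1 ≤ U := Real.one_le_rpow (by exact_mod_cast hX) (by norm_num)
  refine ⟨U, hU, hU12, fun p hp => ?_, ?_⟩
  · obtain ⟨-, ha, hb, hne⟩ := mem_filter.mp hp
    refine ⟨(pow_le_pow_iff_left₀ (abs_nonneg _) (by positivity) three_ne_zero).mp ?_,
      (pow_le_pow_iff_left₀ (abs_nonneg _) (by positivity) two_ne_zero).mp ?_, hne⟩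
    · rw [← pow_mul, hU12]; exact_mod_cast ha
    · rw [← pow_mul, hU12, sq_abs]; exact_mod_cast hb
  · set M := ⌊U ^ 4⌋₊
    set N := ⌊U ^ 6⌋₊
    have hM : (M : ℝ) ≤ U ^ 4 := Nat.floor_le (by positivity)
    have hN : (N : ℝ) ≤ U ^ 6 := Nat.floor_le (by positivity)
    have hM1 : 1 ≤ M := Nat.le_floor (by exact_mod_cast one_le_pow₀ hU)
    have hN1 : 1 ≤ N := Nat.le_floor (by exact_mod_cast one_le_pow₀ hU)
    have hM3 : M ^ 3 ≤ X := by
      have := pow_le_pow_left₀ (Nat.cast_nonneg _) hM 3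
      rw [← pow_mul, hU12] at this
      exact_mod_cast this
    have hN2 : N ^ 2 ≤ X := by
      have := pow_le_pow_left₀ (Nat.cast_nonneg _) hN 2
      rw [← pow_mul, hU12] at this
      exact_mod_cast this
    have hlow := card_minimalPairs hM1 hN1 hM3 hN2
    have h1 := Nat.lt_floor_add_one (U ^ 4)
    have h2 := Nat.lt_floor_add_one (U ^ 6)
    have h3 : (1 : ℝ) ≤ M := by exact_mod_cast hM1
    have h4 : (1 : ℝ) ≤ N := by exact_mod_cast hN1
    have := mul_le_mul (show U ^ 4 ≤ 2 * (M : ℝ) by linarith) (show U ^ 6 ≤ 2 * (N : ℝ) by linarith)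
      (by positivity) (by positivity)
    rw [show U ^ 10 = U ^ 4 * U ^ 6 by ring]
    linarith

/-- **The sum of the points `(k, l)`.** -/
theorem exists_torsionLike_bound : ∃ C : ℝ, 0 ≤ C ∧ ∀ X : ℕ, 1 ≤ X →
    (∀ p ∈ pairsUpTo X, (torsionLike p.1 p.2).Finite) ∧
    ∑ p ∈ pairsUpTo X, ((torsionLike p.1 p.2).ncard : ℝ) ≤ C * (minimalPairs X).card := by
  refine ⟨3 * 118 * 8, by norm_num, fun X hX => ?_⟩
  obtain ⟨U, hU, -, hbd, hlow⟩ := exists_U hX
  have hsub : ∀ p ∈ pairsUpTo X,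
      torsionLike p.1 p.2 ⊆ (candidates p.1 U : Set (ℤ × ℤ)) := fun p hp =>
    torsionLike_subset hU (hbd p hp).1 (hbd p hp).2.1 (hbd p hp).2.2
  refine ⟨fun p hp => (candidates p.1 U).finite_toSet.subset (hsub p hp), ?_⟩
  set As := (pairsUpTo X).image Prod.fst
  have key : ∑ p ∈ pairsUpTo X, ((torsionLike p.1 p.2).ncard : ℝ) ≤
      ∑ A ∈ As, ((candidates A U).card : ℝ) := by
    rw [← sum_fiberwise_of_maps_to (g := Prod.fst) (t := As) fun p hp => mem_image_of_mem _ hp]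
    refine sum_le_sum fun A _ => ?_
    set P := (pairsUpTo X).filter fun p => p.1 = A
    have hfin : ∀ p ∈ P, (torsionLike p.1 p.2).Finite := fun p hp =>
      (candidates p.1 U).finite_toSet.subset (hsub p (mem_filter.mp hp).1)
    rw [← Nat.cast_sum, Nat.cast_le, ← finsum_mem_coe_finset,
      ← Set.Finite.ncard_biUnion P.finite_toSet hfin, ← Set.ncard_coe_finset (candidates A U)]
    · refine Set.ncard_le_ncard (Set.iUnion₂_subset fun p hp => ?_) (candidates A U).finite_toSet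
      obtain ⟨h1, rfl⟩ := mem_filter.mp hp
      exact hsub p h1
    · intro p hp q hq hne
      rw [Function.onFun, Set.disjoint_left]
      rintro ⟨k, l⟩ ⟨e1, -⟩ ⟨e2, -⟩
      obtain ⟨-, a1⟩ := mem_filter.mp hp
      obtain ⟨-, a2⟩ := mem_filter.mp hq
      simp only [a1, a2] at e1 e2
      exact hne (Prod.ext (a1.trans a2.symm) (by linarith))
  have hA : ∀ A ∈ As, |(A : ℝ)| ≤ U ^ 4 := fun A hA => by
    obtain ⟨p, hp, rfl⟩ := mem_image.mp hA
    exact (hbd p hp).1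
  have hcardA : (As.card : ℝ) ≤ 3 * U ^ 4 := by
    refine (card_le_of_diameter (d := 2 * U ^ 4) (by positivity) fun a ha b hb => ?_).trans
      (by linarith [one_le_pow₀ (n := 4) hU])
    have := abs_sub (a : ℝ) (b : ℝ)
    linarith [hA a ha, hA b hb]
  refine key.trans ((sum_le_card_nsmul As _ (118 * U ^ 6)
    fun A hA' => card_candidates hU (hA A hA')).trans ?_)
  rw [nsmul_eq_mul]
  have e := mul_le_mul_of_nonneg_right hcardA (by positivity : (0 : ℝ) ≤ 118 * U ^ 6)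
  nlinarith

theorem classesAt_finite' {A B : ℤ} : (classesAt A B).Finite := by
  obtain ⟨C, hC⟩ := exists_class_bound
  set Y : ℝ := 1 + 48 * |(A : ℝ)| + 1728 * |(B : ℝ)|
  have ha := abs_nonneg (A : ℝ)
  have hb := abs_nonneg (B : ℝ)
  have hY : 1 ≤ Y := by simp only [Y]; linarith
  refine (hC Y hY).1.subset ?_
  rintro c ⟨F, ⟨h1, h2, h3, h4⟩, rfl⟩
  refine ⟨F, ⟨h1, h2, ?_, ?_⟩, rfl⟩
  · rw [h3]; push_cast; rw [abs_mul, abs_neg, Nat.abs_ofNat]
    exact le_trans (by simp only [Y]; linarith) (le_self_pow₀ hY two_ne_zero)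
  · rw [h4]; push_cast; rw [abs_mul, abs_neg, Nat.abs_ofNat]
    exact le_trans (by simp only [Y]; linarith) (le_self_pow₀ hY three_ne_zero)

/-- **The sums of the classes.** -/
theorem exists_classes_sum : ∃ C : ℝ, 0 ≤ C ∧ ∀ X : ℕ, 1 ≤ X → (minimalPairs X).Nonempty ∧
    ∑ p ∈ pairsUpTo X, ((classesAt p.1 p.2).ncard : ℝ) ≤ C * (minimalPairs X).card := by
  obtain ⟨C, hC0, hC⟩ := exists_sum_bound
  exact ⟨C, hC0, fun X hX => ⟨(hC X hX).1,
    (hC X hX).2 (fun A B => (classesAt A B).ncard) fun _ _ _ _ => Nat.le_add_left _ _⟩⟩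

/-- **The average number of integral points is bounded.** -/
theorem exists_intPoints_bound : ∃ C : ℝ, 0 ≤ C ∧ ∀ X : ℕ, 1 ≤ X →
    (minimalPairs X).Nonempty ∧ (∀ p ∈ pairsUpTo X, (intPoints p.1 p.2).Finite) ∧
    ∑ p ∈ pairsUpTo X, ((intPoints p.1 p.2).ncard : ℝ) ≤ C * (minimalPairs X).card := by
  obtain ⟨C, hC0, hC⟩ := exists_classes_sum
  obtain ⟨D, hD0, hD⟩ := exists_torsionLike_bound
  refine ⟨2 * solBound 4 0 * C + D, by positivity, fun X hX => ?_⟩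
  obtain ⟨hne, hsum⟩ := hC X hX
  obtain ⟨htl, htsum⟩ := hD X hX
  have hb : ∀ p ∈ pairsUpTo X, (intPoints p.1 p.2).Finite ∧ (intPoints p.1 p.2).ncard ≤
      2 * solBound 4 0 * (classesAt p.1 p.2).ncard + (torsionLike p.1 p.2).ncard := fun p hp =>
    intPoints_bound (mem_filter.mp hp).2.2.2 classesAt_finite' (htl p hp)
  refine ⟨hne, fun p hp => (hb p hp).1, ?_⟩
  obtain ⟨N, hN⟩ : ∃ N, solBound 4 0 = N := ⟨_, rfl⟩
  simp only [hN] at hb ⊢
  calc ∑ p ∈ pairsUpTo X, ((intPoints p.1 p.2).ncard : ℝ)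
      ≤ ∑ p ∈ pairsUpTo X, (2 * (N : ℝ) * (classesAt p.1 p.2).ncard +
          (torsionLike p.1 p.2).ncard) := sum_le_sum fun p hp => by exact_mod_cast (hb p hp).2
    _ ≤ _ := by
        rw [sum_add_distrib, ← mul_sum]
        have := mul_le_mul_of_nonneg_left hsum (by positivity : (0 : ℝ) ≤ 2 * N)
        linarith

/-- **`S`-integral points without root: bounded on average by `#S` alone.** -/
theorem exists_rootless_bound (t : ℕ) : ∃ C : ℝ, 0 ≤ C ∧ ∀ X : ℕ, 1 ≤ X →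
    (minimalPairs X).Nonempty ∧ ∀ S : Finset ℕ, S.card ≤ t →
    (∀ p ∈ pairsUpTo X, (rootlessPoints S p.1 p.2).Finite) ∧
    ∑ p ∈ pairsUpTo X, ((rootlessPoints S p.1 p.2).ncard : ℝ) ≤ C * (minimalPairs X).card := by
  obtain ⟨C, hC0, hC⟩ := exists_classes_sum
  refine ⟨2 * solBound 4 t * C, by positivity, fun X hX => ⟨(hC X hX).1, fun S hS => ?_⟩⟩
  have hb : ∀ p ∈ pairsUpTo X, (rootlessPoints S p.1 p.2).Finite ∧
      (rootlessPoints S p.1 p.2).ncard ≤ 2 * solBound 4 t * (classesAt p.1 p.2).ncard := by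
    intro p hp
    obtain ⟨h1, h2⟩ := rootlessPoints_bound S (mem_filter.mp hp).2.2.2 classesAt_finite'
    refine ⟨h1, h2.trans (Nat.mul_le_mul_right _ (Nat.mul_le_mul_left _ ?_))⟩
    unfold solBound
    exact Nat.mul_le_mul_left _ (Nat.pow_le_pow_right (by norm_num) (Nat.mul_le_mul_left _
      (Nat.add_le_add_right (Nat.mul_le_mul_left _ (Nat.mul_le_mul_left _
        (Nat.add_le_add_right hS 1))) 1)))
  refine ⟨fun p hp => (hb p hp).1, ?_⟩
  obtain ⟨N, hN⟩ : ∃ N, solBound 4 t = N := ⟨_, rfl⟩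
  simp only [hN] at hb ⊢
  calc ∑ p ∈ pairsUpTo X, ((rootlessPoints S p.1 p.2).ncard : ℝ)
      ≤ ∑ p ∈ pairsUpTo X, (2 * (N : ℝ) * (classesAt p.1 p.2).ncard) :=
        sum_le_sum fun p hp => by exact_mod_cast (hb p hp).2
    _ ≤ _ := by
        rw [← mul_sum, mul_assoc (2 * (N : ℝ))]
        exact mul_le_mul_of_nonneg_left (hC X hX).2 (by positivity)

end FA.IntegralAverage
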