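import Fermat.Agent.IntegralAverage.Thue
import Fermat.Agent.MordellAverage.Main

/-!
# Integral points on the Mordell curves

An integral point of `y² = x³ + k` gives the form `U³ - 3 x U W² + 2 y W³` of discriminant
`-108 k`; by Evertse a class gives boundedly many points, and the points whose form has a rational
zero come from pairs `(a, t)` with `a² (4 a - 3 t²) = 4 k`.
-/

set_option autoImplicit false

noncomputable section

open FA.Thue FA.DeloneFaddeev FA.CubicFormCount Finset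
open scoped Classical

namespace FA.IntegralAverage

open FA.MordellAverage (classesAt classesUpTo kValues mem_kValues classesAt_finite covT)

/-- The integral points on `y² = x³ + k`. -/
def mordPoints (k : ℤ) : Set (ℤ × ℤ) := {p | p.2 ^ 2 = p.1 ^ 3 + k}

/-- The pairs `(a, t)` with `a² (4 a - 3 t²) = 4 k`. -/
def rootPairs (k : ℤ) : Set (ℤ × ℤ) := {q | q.1 ^ 2 * (4 * q.1 - 3 * q.2 ^ 2) = 4 * k}

/-- The form of an integral point. -/
def monicForm (x y : ℤ) : CubicForm := ⟨1, 0, -3 * x, 2 * y⟩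

theorem monicForm_disc {k x y : ℤ} (h : y ^ 2 = x ^ 3 + k) :
    (monicForm x y).disc = -108 * k := by
  simp only [monicForm, CubicForm.disc]
  linear_combination -108 * h

theorem mem_rootPairs {k x y t : ℤ} (h : y ^ 2 = x ^ 3 + k) (ht : t ^ 3 - 3 * x * t + 2 * y = 0) :
    (t ^ 2 - x, t) ∈ rootPairs k := by
  show (t ^ 2 - x) ^ 2 * (4 * (t ^ 2 - x) - 3 * t ^ 2) = 4 * k
  linear_combination (t ^ 3 - 3 * x * t - 2 * y) * ht + 4 * h

theorem exists_int_root {x y : ℤ} (hn : ¬ (monicForm x y).Anisotropic) :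
    ∃ t : ℤ, t ^ 3 - 3 * x * t + 2 * y = 0 := by
  simp only [CubicForm.Anisotropic, not_forall] at hn
  obtain ⟨p, r, h0, hne⟩ := hn
  simp only [CubicForm.eval, monicForm, Int.cast_id] at h0
  have hr : r ≠ 0 := by
    rintro rfl
    exact hne ⟨pow_eq_zero_iff three_ne_zero |>.mp (by linarith), rfl⟩
  have hg : (Int.gcd p r : ℤ) ≠ 0 := by
    simp [Int.gcd_eq_zero_iff, hr]
  obtain ⟨p', hp'⟩ := Int.gcd_dvd_left p r
  obtain ⟨r', hr'⟩ := Int.gcd_dvd_right p r
  set g := (Int.gcd p r : ℤ)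
  have hco : IsCoprime p' r' := by
    have huv : g = p * Int.gcdA p r + r * Int.gcdB p r := Int.gcd_eq_gcd_ab p r
    refine ⟨Int.gcdA p r, Int.gcdB p r, mul_left_cancel₀ hg ?_⟩
    linear_combination -huv - Int.gcdA p r * hp' - Int.gcdB p r * hr'
  rw [hp', hr'] at h0
  have h1 : p' ^ 3 = r' * (r' * (3 * x * p' - 2 * y * r')) := by
    refine mul_left_cancel₀ (pow_ne_zero 3 hg) ?_
    linear_combination h0
  have hu : IsUnit r' := (hco.symm.pow_right (n := 3)).isUnit_of_dvd ⟨_, h1⟩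
  refine ⟨p' * r', ?_⟩
  have hr2 : r' * r' = 1 := isUnit_mul_self hu
  linear_combination r' ^ 3 * h1 + (3 * x * p' * r' * (r' * r' + 1) -
    2 * y * (r' ^ 4 + r' ^ 2 + 1) - p' * r' * 0) * hr2

/-- **Boundedly many points to a class.** -/
theorem mordPoints_bound {k : ℤ} (hk : k ≠ 0) (hP : (rootPairs k).Finite) :
    (mordPoints k).Finite ∧
      (mordPoints k).ncard ≤ 2 * solBound 3 0 * (classesAt k).ncard + (rootPairs k).ncard := by
  set A : Set (ℤ × ℤ) := {p ∈ mordPoints k | (monicForm p.1 p.2).Anisotropic}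
  set I : Set (ℤ × ℤ) := {p ∈ mordPoints k | ¬ (monicForm p.1 p.2).Anisotropic}
  have hsplit : mordPoints k ⊆ A ∪ I := fun p hp => by
    by_cases h : (monicForm p.1 p.2).Anisotropic
    · exact Or.inl ⟨hp, h⟩
    · exact Or.inr ⟨hp, h⟩
  let g : ℤ × ℤ → ℤ × ℤ := fun q =>
    (q.2 ^ 2 - q.1, (3 * (q.2 ^ 2 - q.1) * q.2 - q.2 ^ 3) / 2)
  have hI : I ⊆ g '' rootPairs k := by
    rintro ⟨x, y⟩ ⟨hp, hn⟩
    obtain ⟨t, ht⟩ := exists_int_root hn
    refine ⟨(t ^ 2 - x, t), mem_rootPairs hp ht, Prod.ext (by simp [g]) ?_⟩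
    simp only [g]
    rw [show 3 * (t ^ 2 - (t ^ 2 - x)) * t - t ^ 3 = y * 2 by linear_combination -ht,
      Int.mul_ediv_cancel _ two_ne_zero]
  have hfin := classesAt_finite hk
  have hrep : ∀ c ∈ classesAt k, ∃ G : CubicForm, G.Anisotropic ∧ G.disc = -108 * k ∧
      classSet G = c := by
    rintro c ⟨G, ⟨h1, h2⟩, rfl⟩
    exact ⟨G, h1, h2, rfl⟩
  choose rep han hdisc hcl using hrep
  have hsol : ∀ c (hc : c ∈ classesAt k),
      (valueSet ∅ fun p q => (rep c hc).eval p q).Finite ∧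
      (valueSet ∅ fun p q => (rep c hc).eval p q).ncard ≤ solBound 3 0 := fun c hc => by
    simpa using cubic_solutions ∅ (by rw [hdisc c hc]; omega) (han c hc).a_ne_zero
  set xs : Finset ℤ := hfin.toFinset.attach.biUnion fun c =>
    (hsol c.1 (hfin.mem_toFinset.mp c.2)).1.toFinset.image fun z : ℤ × ℤ =>
      (rep c.1 (hfin.mem_toFinset.mp c.2)).hess z.1 z.2 / 9 with hxs
  have hcard : xs.card ≤ solBound 3 0 * (classesAt k).ncard := by
    refine (Finset.card_biUnion_le).trans ((Finset.sum_le_card_nsmul _ _ (solBound 3 0)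
      fun c _ => ?_).trans_eq ?_)
    · refine Finset.card_image_le.trans ?_
      rw [← Set.ncard_eq_toFinset_card _ _]
      exact (hsol c.1 (hfin.mem_toFinset.mp c.2)).2
    · rw [Finset.card_attach, ← Set.ncard_eq_toFinset_card _ hfin, smul_eq_mul, mul_comm]
  have hmem : ∀ p ∈ A, p.1 ∈ xs := by
    rintro ⟨x, y⟩ ⟨hp, ha⟩
    set F := monicForm x y with hF
    have hc : classSet F ∈ classesAt k := ⟨F, ⟨ha, monicForm_disc hp⟩, rfl⟩
    set G := rep (classSet F) hc
    obtain ⟨M, hM, hG⟩ := twisted_of_classSet (hcl (classSet F) hc)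
    set e := M.det with hedef
    have he2 : e * e = 1 := isUnit_mul_self hM
    have hdet : M 0 0 * M 1 1 - M 0 1 * M 1 0 = e := (Matrix.det_fin_two M).symm
    have h1 : G.eval (M 0 0) (M 1 0) = e := by
      have := congrArg CubicForm.a hG
      rw [show F.a = 1 from rfl] at this
      simp only [scale, actMat, CubicForm.act] at this
      linear_combination -e * this - G.eval (M 0 0) (M 1 0) * he2
    have h3 : 9 * x = G.hess (M 0 0) (M 1 0) := by
      have h := G.hess_act (R := ℤ) (M 0 0) (M 0 1) (M 1 0) (M 1 1) 1 0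
      simp only [Int.cast_id, hdet] at h
      rw [show (G.act (M 0 0) (M 0 1) (M 1 0) (M 1 1)).hess (1 : ℤ) 0 =
        (G.act (M 0 0) (M 0 1) (M 1 0) (M 1 1)).b ^ 2 -
          3 * (G.act (M 0 0) (M 0 1) (M 1 0) (M 1 1)).a *
            (G.act (M 0 0) (M 0 1) (M 1 0) (M 1 1)).c by simp [CubicForm.hess]] at h
      have hx : 9 * x = F.b ^ 2 - 3 * F.a * F.c := by simp [hF, monicForm]; ring
      rw [hx, hG]
      simp only [scale, actMat, mul_one, mul_zero, add_zero] at h ⊢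
      linear_combination e ^ 2 * h + G.hess (M 0 0) (M 1 0) * (e ^ 2 + 1) * he2
    simp only [hxs, Finset.mem_biUnion, Finset.mem_image, Set.Finite.mem_toFinset]
    refine ⟨⟨classSet F, hfin.mem_toFinset.mpr hc⟩, Finset.mem_attach _ _, (M 0 0, M 1 0),
      ⟨⟨e * M 1 1, -(e * M 0 1), by linear_combination e * hdet + he2⟩, ?_,
        fun l hl hld => ?_⟩, ?_⟩
    · show G.eval (M 0 0) (M 1 0) ≠ 0
      rw [h1]
      exact hM.ne_zero
    · replace hld : (l : ℤ) ∣ G.eval (M 0 0) (M 1 0) := hld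
      rw [h1] at hld
      exact absurd (isUnit_of_dvd_unit hld hM)
        (Nat.prime_iff_prime_int.1 hl).not_isUnit
    · show G.hess (M 0 0) (M 1 0) / 9 = x
      rw [← h3, Int.mul_ediv_cancel_left _ (by norm_num)]
  let j : ℤ × ℤ → ℤ × Bool := fun p => (p.1, decide (0 ≤ p.2))
  have hinj : Set.InjOn j A := by
    rintro ⟨x, y⟩ ⟨hp, -⟩ ⟨x', y'⟩ ⟨hp', -⟩ e
    simp only [j, Prod.mk.injEq, decide_eq_decide] at e
    obtain ⟨rfl, hs⟩ := e
    have h1 : y ^ 2 = x ^ 3 + k := hp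
    have h2 : y' ^ 2 = x ^ 3 + k := hp'
    rcases sq_eq_sq_iff_eq_or_eq_neg.1 (h1.trans h2.symm) with h | h
    · rw [h]
    · subst h
      have : y' = 0 := by omega
      simp [this]
  have hmaps : Set.MapsTo j A ((xs ×ˢ (Finset.univ : Finset Bool) : Finset (ℤ × Bool)) :
      Set (ℤ × Bool)) := fun p hp => by
    simp only [Finset.coe_product, Set.mem_prod, Finset.mem_coe, Finset.mem_univ, and_true, j]
    exact hmem p hp
  have hAfin : A.Finite :=
    Set.Finite.of_injOn hmaps hinj (Finset.finite_toSet _)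
  have hIfin : I.Finite := (hP.image g).subset hI
  refine ⟨(hAfin.union hIfin).subset hsplit, (Set.ncard_le_ncard hsplit (hAfin.union hIfin)).trans
    ((Set.ncard_union_le _ _).trans (add_le_add ?_ ?_))⟩
  · refine (Set.ncard_le_ncard_of_injOn j hmaps hinj (Finset.finite_toSet _)).trans ?_
    rw [Set.ncard_coe_finset, Finset.card_product, Finset.card_univ, Fintype.card_bool,
      mul_comm xs.card, mul_assoc]
    exact Nat.mul_le_mul_left 2 hcard
  · exact (Set.ncard_le_ncard hI (hP.image g)).trans (Set.ncard_image_le hP)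

/-- The pairs `(a, t)` for `|k| ≤ K`. -/
theorem rootPairs_subset {K : ℕ} {k : ℤ} (hk : k ∈ kValues K) :
    rootPairs k ⊆ ((Icc (-(2 * Nat.sqrt K + 1 : ℤ)) (2 * Nat.sqrt K + 1) ×ˢ
      Icc (-(2 * Nat.sqrt K + 1 : ℤ)) (2 * Nat.sqrt K + 1) : Finset (ℤ × ℤ)) : Set (ℤ × ℤ)) := by
  obtain ⟨hk0, hkK⟩ := mem_kValues.mp hk
  rintro ⟨a, t⟩ (h : a ^ 2 * (4 * a - 3 * t ^ 2) = 4 * k)
  set b := 4 * a - 3 * t ^ 2
  have hb : 1 ≤ |b| := Int.one_le_abs fun e => by rw [e, mul_zero] at h; omega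
  have ha : a ≠ 0 := fun e => by rw [e] at h; simp at h; omega
  have h1 : a ^ 2 * |b| ≤ 4 * (K : ℤ) := by
    have : |a ^ 2 * b| = 4 * |k| := by rw [h, abs_mul]; rfl
    rw [abs_mul, abs_of_nonneg (sq_nonneg a)] at this
    linarith
  have ha2 : a ^ 2 ≤ 4 * (K : ℤ) := by nlinarith [sq_nonneg a]
  have hb2 : |b| ≤ 4 * (K : ℤ) := by nlinarith [abs_nonneg b, sq_pos_of_ne_zero ha]
  have ht2 : t ^ 2 ≤ 4 * (K : ℤ) := by
    have h2 : a ≤ a ^ 2 := Int.le_self_sq a
    have h3 := neg_le_abs b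
    have hb' : b = 4 * a - 3 * t ^ 2 := rfl
    rcases le_or_gt (|a|) 1 with h4 | h4
    · have : a ≤ 1 := (le_abs_self a).trans h4
      nlinarith [Int.one_le_abs ha]
    · have h5 : 2 * |a| ≤ a ^ 2 := by rw [← sq_abs]; nlinarith
      have h6 : 4 * |b| ≤ 4 * (K : ℤ) := by nlinarith [abs_nonneg b]
      nlinarith [le_abs_self a]
  have hs : (K : ℤ) < ((Nat.sqrt K : ℤ) + 1) ^ 2 := by exact_mod_cast Nat.lt_succ_sqrt' K
  have bd : ∀ z : ℤ, z ^ 2 ≤ 4 * (K : ℤ) →
      z ∈ Icc (-(2 * Nat.sqrt K + 1 : ℤ)) (2 * Nat.sqrt K + 1) := by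
    intro z hz
    rw [mem_Icc]
    constructor <;> nlinarith
  exact mem_coe.mpr (mem_product.mpr ⟨bd a ha2, bd t ht2⟩)

/-- **The average number of integral points on Mordell curves is bounded.** -/
theorem exists_mordPoints_bound : ∃ C : ℝ, 0 ≤ C ∧ ∀ K : ℕ, 1 ≤ K →
    (∀ k ∈ kValues K, (mordPoints k).Finite) ∧
    ∑ k ∈ kValues K, ((mordPoints k).ncard : ℝ) ≤ C * K := by
  obtain ⟨C, hC0, hC⟩ := FA.MordellAverage.exists_class_bound
  refine ⟨2 * solBound 3 0 * C + 49, by positivity, fun K hK => ?_⟩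
  set B := Icc (-(2 * Nat.sqrt K + 1 : ℤ)) (2 * Nat.sqrt K + 1) ×ˢ
    Icc (-(2 * Nat.sqrt K + 1 : ℤ)) (2 * Nat.sqrt K + 1)
  have hRfin : ∀ k ∈ kValues K, (rootPairs k).Finite := fun k hk =>
    B.finite_toSet.subset (rootPairs_subset hk)
  have hb : ∀ k ∈ kValues K, (mordPoints k).Finite ∧ (mordPoints k).ncard ≤
      2 * solBound 3 0 * (classesAt k).ncard + (rootPairs k).ncard := fun k hk =>
    mordPoints_bound (mem_kValues.mp hk).1 (hRfin k hk)
  refine ⟨fun k hk => (hb k hk).1, ?_⟩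
  have hR : ∑ k ∈ kValues K, (rootPairs k).ncard ≤ B.card := by
    rw [← finsum_mem_coe_finset, ← Set.Finite.ncard_biUnion (kValues K).finite_toSet hRfin,
      ← Set.ncard_coe_finset B]
    · exact Set.ncard_le_ncard (Set.iUnion₂_subset fun k hk => rootPairs_subset hk) B.finite_toSet
    · intro k _ k' _ hne
      rw [Function.onFun, Set.disjoint_left]
      intro q (h1 : _ = 4 * k) (h2 : _ = 4 * k')
      omega
  have hB : (B.card : ℝ) ≤ 49 * K := by
    have h : B.card ≤ 49 * K := by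
      simp only [B, card_product, Int.card_Icc]
      have e : ((2 * (Nat.sqrt K : ℤ) + 1) + 1 - -(2 * (Nat.sqrt K : ℤ) + 1)).toNat =
          4 * Nat.sqrt K + 3 := by omega
      rw [e]
      nlinarith [Nat.sqrt_le' K, Nat.one_le_iff_ne_zero.mpr
        (Nat.sqrt_pos.mpr (by omega : 0 < K)).ne']
    exact_mod_cast h
  have hcl : ∑ k ∈ kValues K, (classesAt k).ncard ≤ (classesUpTo K).ncard := by
    have hsub : ∀ k ∈ kValues K, classesAt k ⊆ classesUpTo K := fun k hk => by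
      obtain ⟨h1, h2⟩ := mem_kValues.mp hk
      exact FA.MordellAverage.classesAt_subset h1 (by rw [← Int.cast_abs]; exact_mod_cast h2)
    rw [← finsum_mem_coe_finset,
      ← Set.Finite.ncard_biUnion (kValues K).finite_toSet
        (fun k hk => (FA.MordellAverage.classesUpTo_finite _).subset (hsub k hk))
        (fun k _ k' _ hne => FA.MordellAverage.classesAt_disjoint hne)]
    exact Set.ncard_le_ncard (Set.iUnion₂_subset hsub) (FA.MordellAverage.classesUpTo_finite _)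
  obtain ⟨N, hN⟩ : ∃ N, solBound 3 0 = N := ⟨_, rfl⟩
  simp only [hN] at hb ⊢
  have hcl' : ((∑ k ∈ kValues K, (classesAt k).ncard : ℕ) : ℝ) ≤ C * K :=
    le_trans (by exact_mod_cast hcl) (hC K hK)
  have hR' : ((∑ k ∈ kValues K, (rootPairs k).ncard : ℕ) : ℝ) ≤ 49 * K :=
    le_trans (by exact_mod_cast hR) hB
  calc ∑ k ∈ kValues K, ((mordPoints k).ncard : ℝ)
      ≤ ∑ k ∈ kValues K, (2 * (N : ℝ) * (classesAt k).ncard + (rootPairs k).ncard) :=
        sum_le_sum fun k hk => by exact_mod_cast (hb k hk).2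
    _ ≤ _ := by
        rw [sum_add_distrib, ← mul_sum]
        push_cast at hcl' hR'
        have := mul_le_mul_of_nonneg_left hcl' (by positivity : (0 : ℝ) ≤ 2 * N)
        linarith

end FA.IntegralAverage
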